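import Fermat.Agent.S30.Rational
import Fermat.Agent.S24.HolHOrd

set_option autoImplicit false
set_option linter.dupNamespace false

/-!
# The `ℂ`-side of the Kummer descent: shared definitions

* `sysC N`, `GoodC N`: the `q^(1/N)`-expansion system over `ℂ` and its subalgebra of good
  Laurent series (expansions of holomorphic `Γ₀(N)`-invariant functions all of whose
  `SL(2,ℤ)`-translates have expansions).
* `FC N = ℂ(j(q^d) : d ∣ N)`: the function field of `X₀(N)` over `ℂ`, inside `ℂ((q))`.
* `thetaC N : GoodC N →ₐ[ℂ] HolH`: the analytic avatar.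
* `DivH N m f`: `f = a / b` with `a`, `b` good and all orders on `ℍ` of `θ a / θ b` divisible
  by `m`.
-/

noncomputable section

open UpperHalfPlane ModularCurve HahnSeries CongruenceSubgroup
open Fermat.Agent.S24.Cusp Fermat.Agent.S24.HolH Fermat.Agent.S24
open scoped MatrixGroups Manifold

namespace Fermat.Agent.S30.DescentInst

variable (N : ℕ) [NeZero N]

/-- The `q^(1/N)`-expansion system over `ℂ`. -/
abbrev sysC : QExpSys ℂ N := Fermat.Agent.S30.Rational.sysOf (RingHom.id ℂ) N

/-- The subalgebra of good Laurent series over `ℂ`. -/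
abbrev GoodC : Subalgebra ℂ (LaurentSeries ℂ) := (sysC N).goodSubalgebra

/-- The function field of `X₀(N)` over `ℂ`, inside `ℂ((q))`. -/
abbrev FC (N : ℕ) : IntermediateField ℂ (LaurentSeries ℂ) :=
  IntermediateField.adjoin ℂ (DegreeGen.gens ℂ N)

theorem has_funOf (f : GoodC N) :
    QB.HasQExpK (RingHom.id ℂ) N (qExpand ℂ N (f : LaurentSeries ℂ)) ((sysC N).funOf f) :=
  (sysC N).has_funOf f

theorem mdiff_funOf (f : GoodC N) : MDifferentiable 𝓘(ℂ) 𝓘(ℂ) ((sysC N).funOf f) :=
  (has_funOf N f).mdiff (NeZero.ne N)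

/-- The analytic avatar of a good series, as a holomorphic function on `ℍ`. -/
def thetaC : GoodC N →ₐ[ℂ] HolH where
  toFun f := ⟨(sysC N).funOf f, mdiff_funOf N f⟩
  map_one' := Subtype.ext (by
    have h1 : (1 : GoodC N) = algebraMap ℂ (GoodC N) 1 := (map_one _).symm
    show (sysC N).funOf 1 = 1
    rw [h1, (sysC N).funOf_algebraMap]
    funext τ
    simp [Fermat.Agent.S30.Rational.sysOf_ι])
  map_mul' f g := Subtype.ext ((sysC N).funOf_mul f g)
  map_zero' := Subtype.ext (by
    have h1 : (0 : GoodC N) = algebraMap ℂ (GoodC N) 0 := (map_zero _).symm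
    show (sysC N).funOf 0 = 0
    rw [h1, (sysC N).funOf_algebraMap]
    funext τ
    simp [Fermat.Agent.S30.Rational.sysOf_ι])
  map_add' f g := Subtype.ext ((sysC N).funOf_add f g)
  commutes' c := Subtype.ext (by
    show (sysC N).funOf (algebraMap ℂ (GoodC N) c) = _
    rw [(sysC N).funOf_algebraMap]
    rfl)

theorem coe_thetaC (f : GoodC N) : ((thetaC N f : HolH) : ℍ → ℂ) = (sysC N).funOf f := rfl

theorem thetaC_apply (f : GoodC N) (τ : ℍ) :
    ((thetaC N f : HolH) : ℍ → ℂ) τ = (sysC N).funOf f τ := rfl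

/-- `θ` is compatible with `q`-expansions. -/
theorem hasQExpK_thetaC (f : GoodC N) :
    QB.HasQExpK (RingHom.id ℂ) N (qExpand ℂ N (f : LaurentSeries ℂ))
      ((thetaC N f : HolH) : ℍ → ℂ) :=
  has_funOf N f

/-- A good series is determined by its analytic avatar. -/
theorem thetaC_injective : Function.Injective (thetaC N) := by
  intro f g h
  have h1 : (sysC N).funOf f = (sysC N).funOf g := congrArg Subtype.val h
  have h2 := has_funOf N f
  rw [h1] at h2
  have h3 := h2.unique (NeZero.ne N) (has_funOf N g)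
  exact Subtype.ext (qExpand_injective N h3)

theorem thetaC_ne_zero {f : GoodC N} (hf : f ≠ 0) : thetaC N f ≠ 0 :=
  (map_ne_zero_iff _ (thetaC_injective N)).mpr hf

/-- A good series is the one with the given avatar. -/
theorem thetaC_eq_of_has {f : GoodC N} {φ : HolH}
    (h : QB.HasQExpK (RingHom.id ℂ) N (qExpand ℂ N (f : LaurentSeries ℂ)) (φ : ℍ → ℂ)) :
    thetaC N f = φ :=
  Subtype.ext ((sysC N).funOf_eq h)

/-- `Γ₀(N)`-invariance of the avatars. -/
theorem compSL_thetaC {γ : SL(2, ℤ)} (hγ : γ ∈ Gamma0 N) (f : GoodC N) :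
    compSL γ (thetaC N f) = thetaC N f := by
  apply Subtype.ext
  funext τ
  rw [compSL_apply]
  exact (sysC N).funOf_Gamma0 f γ hγ τ

/-- Every translate of an avatar has an expansion. -/
theorem exists_has_compSL_thetaC (γ : SL(2, ℤ)) (f : GoodC N) :
    ∃ B : LaurentSeries ℂ, QB.HasQExpK (RingHom.id ℂ) N B
      ((compSL γ (thetaC N f) : HolH) : ℍ → ℂ) := by
  obtain ⟨B, hB⟩ := (sysC N).exists_has_smul f γ
  exact ⟨B, hB.congr fun τ => by rw [compSL_apply]; rfl⟩

/-- The good series `j(q)`. -/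
def jC : GoodC N := (sysC N).jG 1 (one_dvd N)

theorem coe_jC : ((jC N : GoodC N) : LaurentSeries ℂ) = coeffEmb ℂ jq := by
  show jgen ℂ 1 = _
  exact QExpSys.jgen_one

theorem thetaC_jC : ((thetaC N (jC N) : HolH) : ℍ → ℂ) = JFun.jFun := by
  show (sysC N).funOf ((sysC N).jG 1 (one_dvd N)) = _
  rw [(sysC N).funOf_jG_one]
  rfl

/-- Good series lie in the function field. -/
theorem coe_mem_FC (f : GoodC N) : (f : LaurentSeries ℂ) ∈ FC N :=
  Fermat.Agent.S30.Rational.good_mem_adjoin (RingHom.id ℂ) N _ f.2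

theorem gens_subset_goodC :
    DegreeGen.gens ℂ N ⊆ ((GoodC N : Subalgebra ℂ (LaurentSeries ℂ)) : Set (LaurentSeries ℂ)) :=
  Fermat.Agent.S30.Rational.gens_subset_good (RingHom.id ℂ) N

/-- Every element of the function field is a quotient of good series. -/
theorem exists_good_frac {f : LaurentSeries ℂ} (hf : f ∈ FC N) :
    ∃ a b : GoodC N, b ≠ 0 ∧ f * (b : LaurentSeries ℂ) = a := by
  -- the set of quotients of good series is a subfield containing the generators
  let S : IntermediateField ℂ (LaurentSeries ℂ) :=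
    { carrier := {f | ∃ a b : GoodC N, b ≠ 0 ∧ f * (b : LaurentSeries ℂ) = a}
      mul_mem' := by
        rintro f g ⟨a, b, hb, hab⟩ ⟨c, d, hd, hcd⟩
        refine ⟨a * c, b * d, mul_ne_zero hb hd, ?_⟩
        push_cast
        rw [← hab, ← hcd]
        ring
      one_mem' := ⟨1, 1, one_ne_zero, by simp⟩
      add_mem' := by
        rintro f g ⟨a, b, hb, hab⟩ ⟨c, d, hd, hcd⟩
        refine ⟨a * d + c * b, b * d, mul_ne_zero hb hd, ?_⟩
        push_cast
        rw [← hab, ← hcd]
        ring
      zero_mem' := ⟨0, 1, one_ne_zero, by simp⟩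
      algebraMap_mem' := fun c => ⟨algebraMap ℂ (GoodC N) c, 1, one_ne_zero, by simp⟩
      inv_mem' := by
        rintro f ⟨a, b, hb, hab⟩
        by_cases ha : a = 0
        · have hb' : (b : LaurentSeries ℂ) ≠ 0 := fun h => hb (Subtype.ext h)
          have hf0 : f = 0 := by
            rw [ha] at hab
            exact (mul_eq_zero.mp hab).resolve_right hb'
          rw [hf0, inv_zero]
          exact ⟨0, 1, one_ne_zero, by simp⟩
        · refine ⟨b, a, ha, ?_⟩
          have hb' : (b : LaurentSeries ℂ) ≠ 0 := fun h => hb (Subtype.ext h)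
          have ha' : (a : LaurentSeries ℂ) ≠ 0 := fun h => ha (Subtype.ext h)
          have hf0 : f ≠ 0 := by
            rintro rfl
            rw [zero_mul] at hab
            exact ha' hab.symm
          rw [← hab]
          field_simp }
  have hle : FC N ≤ S := by
    rw [IntermediateField.adjoin_le_iff]
    intro y hy
    exact ⟨⟨y, gens_subset_goodC N hy⟩, 1, one_ne_zero, by simp⟩
  exact hle hf

/-- Coefficientwise automorphisms preserve the function field. -/
theorem coeffMap_mem_FC (N : ℕ) (σ : ℂ ≃+* ℂ) {f : LaurentSeries ℂ} (hf : f ∈ FC N) :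
    coeffMap (σ : ℂ →+* ℂ) f ∈ FC N := by
  have hgen : ∀ y ∈ DegreeGen.gens ℂ N, coeffMap (σ : ℂ →+* ℂ) y = y := by
    rintro _ ⟨x, -, rfl⟩
    rw [coeffEmb, coeffMap_coeffMap]
    exact coeffMap_congr (RingHom.ext fun c => by simp) x
  induction hf using IntermediateField.adjoin_induction with
  | mem y hy => rw [hgen y hy]; exact IntermediateField.subset_adjoin ℂ _ hy
  | algebraMap c => rw [coeffMap_algebraMap]; exact (FC N).algebraMap_mem _
  | add x y _ _ hx hy => rw [map_add]; exact add_mem hx hy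
  | inv x _ hx => rw [map_inv₀]; exact inv_mem hx
  | mul x y _ _ hx hy => rw [map_mul]; exact mul_mem hx hy

/-- `f` is an *`m`-divisible* modular function: a quotient `a / b` of good series such that all
orders on `ℍ` of `θ a / θ b` are divisible by `m`. -/
def DivH (m : ℕ) (f : LaurentSeries ℂ) : Prop :=
  ∃ a b : GoodC N, a ≠ 0 ∧ b ≠ 0 ∧ f * (b : LaurentSeries ℂ) = a ∧
    ∀ τ : ℍ, (m : ℤ) ∣ ordZ τ (thetaC N a) - ordZ τ (thetaC N b)

variable {N}

theorem DivH.ne_zero {m : ℕ} {f : LaurentSeries ℂ} (h : DivH N m f) : f ≠ 0 := by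
  obtain ⟨a, b, ha, hb, hab, -⟩ := h
  rintro rfl
  rw [zero_mul] at hab
  exact ha (Subtype.ext hab.symm)

theorem DivH.mem_FC {m : ℕ} {f : LaurentSeries ℂ} (h : DivH N m f) : f ∈ FC N := by
  obtain ⟨a, b, ha, hb, hab, -⟩ := h
  have hb' : (b : LaurentSeries ℂ) ≠ 0 := fun h => hb (Subtype.ext h)
  have hf : f = (a : LaurentSeries ℂ) / b := by
    rw [eq_div_iff hb', hab]
  rw [hf]
  exact div_mem (coe_mem_FC N a) (coe_mem_FC N b)

/-- `DivH` does not depend on the representation as a quotient. -/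
theorem DivH.dvd_of_eq {m : ℕ} {f : LaurentSeries ℂ} (h : DivH N m f) {a b : GoodC N}
    (ha : a ≠ 0) (hb : b ≠ 0) (hab : f * (b : LaurentSeries ℂ) = a) (τ : ℍ) :
    (m : ℤ) ∣ ordZ τ (thetaC N a) - ordZ τ (thetaC N b) := by
  obtain ⟨a', b', ha', hb', hab', hdiv⟩ := h
  have hcross : a * b' = a' * b := by
    apply Subtype.ext
    push_cast
    rw [← hab, ← hab']
    ring
  have h1 := congrArg (fun x => ordZ τ (thetaC N x)) hcross
  simp only [map_mul] at h1
  rw [ordZ_mul τ (thetaC_ne_zero N ha) (thetaC_ne_zero N hb'),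
    ordZ_mul τ (thetaC_ne_zero N ha') (thetaC_ne_zero N hb)] at h1
  have h2 := hdiv τ
  have h3 : ordZ τ (thetaC N a) - ordZ τ (thetaC N b)
      = ordZ τ (thetaC N a') - ordZ τ (thetaC N b') := by omega
  rw [h3]
  exact h2

end Fermat.Agent.S30.DescentInst

end
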