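import Fermat.Agent.S30.AutStable
import Fermat.Agent.S30.DescentInst.Defs
import Fermat.Agent.S30.CSide.Degree

set_option autoImplicit false
set_option linter.dupNamespace false
set_option linter.unusedSectionVars false

/-!
# `DivH` is stable under coefficientwise automorphisms of `ℂ`

`divH_coeffMap`: if `f ∈ ℂ((q))` is an `m`-divisible modular function of level `N` (all orders
on `ℍ` divisible by `m`), then so is `σ f` for every ring automorphism `σ` of `ℂ` acting on the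
coefficients.

Proof: the abstract statement `AutStable.dvd_ord_of_ringEquiv` applied to the uniformisation
data of `FL ℂ N` (`CSide.Pkg`, `CSide.Degree`), together with the comparison of the two analytic
avatars `thetaC` (good series) and `thetaL` (polynomials in the `j(q^d)`).
-/

noncomputable section

namespace Fermat.Agent.S30.DescentInst

open UpperHalfPlane ModularCurve HahnSeries CongruenceSubgroup IntermediateField
open Fermat.Agent.S24.Cusp Fermat.Agent.S24.HolH Fermat.Agent.S24 Fermat.Agent.S24.JHol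
open Fermat.Agent.S24.Theta Fermat.Agent.S24.DegreeGen Fermat.Agent.S24.StabAbs
open Fermat.Agent.S30.CSide Fermat.Agent.S30.AutStable
open scoped MatrixGroups

namespace AutSt

variable (N : ℕ) [NeZero N]

/-- The analytic uniformisation data of `FL ℂ N = ℂ(j(q^d) : d ∣ N)`. -/
def cdataC : CData N (FL ℂ N) where
  jF := jL ℂ N
  F₀ := A0L ℂ N
  hF₀ := exists_mul_eqL
  hj := (jA0L ℂ N).2
  θ := thetaL (RingHom.id ℂ) N
  θ_inj := thetaL_injective (RingHom.id ℂ) N
  θ_const := fun c => by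
    rw [thetaL_algebraMap]
    rfl
  θ_j := Subtype.ext (thetaL_jA0L (RingHom.id ℂ) N)
  θ_inv := fun g hg f => compSL_thetaL_of_mem_Gamma0 hg f
  θ_stab := mem_Gamma0_of_thetaL_stab (RingHom.id ℂ) N
  trans := transcendental_jL N
  fin := finite_jL (RingHom.id ℂ) N
  deg_le := by
    rw [finrank_jL (RingHom.id ℂ) N, Fermat.Agent.S24.Comb.card_quotient_Gamma0 N]

theorem cdataC_θ (x : A0L ℂ N) : (cdataC N).θ x = thetaL (RingHom.id ℂ) N x := rfl

/-! ### Comparison of `thetaC` and `thetaL` -/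

theorem A0L_coe_mem_goodC (x : A0L ℂ N) : ((x : FL ℂ N) : LaurentSeries ℂ) ∈ GoodC N :=
  Algebra.adjoin_le (gens_subset_goodC N) x.2

/-- A polynomial in the `j(q^d)` as a good series. -/
def inclG (x : A0L ℂ N) : GoodC N := ⟨((x : FL ℂ N) : LaurentSeries ℂ), A0L_coe_mem_goodC N x⟩

theorem coe_inclG (x : A0L ℂ N) :
    ((inclG N x : GoodC N) : LaurentSeries ℂ) = ((x : FL ℂ N) : LaurentSeries ℂ) := rfl

theorem thetaC_inclG (x : A0L ℂ N) : thetaC N (inclG N x) = thetaL (RingHom.id ℂ) N x := by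
  refine thetaL_induction (ι := RingHom.id ℂ) (N := N)
    (P := fun x φ => thetaC N (inclG N x) = φ) ?_ ?_ ?_ ?_ x
  · intro d _ hd
    have h1 : inclG N (genL ℂ N d hd) = (sysC N).jG d hd := Subtype.ext rfl
    rw [h1]
    apply Subtype.ext
    show (sysC N).funOf ((sysC N).jG d hd) = _
    rw [(sysC N).funOf_jG]
    funext τ
    rw [jScale_apply, scaleH_eq_mob]
    rfl
  · intro c
    have h1 : inclG N (algebraMap ℂ (A0L ℂ N) c) = algebraMap ℂ (GoodC N) c := Subtype.ext rfl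
    rw [h1, AlgHom.commutes]
    rfl
  · intro x y φ ψ hx hy
    have h1 : inclG N (x + y) = inclG N x + inclG N y := Subtype.ext rfl
    rw [h1, map_add, hx, hy]
  · intro x y φ ψ hx hy
    have h1 : inclG N (x * y) = inclG N x * inclG N y := Subtype.ext rfl
    rw [h1, map_mul, hx, hy]

omit [NeZero N] in
theorem mem_FL_iff {f : LaurentSeries ℂ} :
    f ∈ laurentBaseChange ℂ (modularFunctionFieldFull N) ↔ f ∈ FC N := by
  rw [laurentBaseChange_full_eq_adjoin]

/-- A good series as an element of the function field. -/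
def toFL (a : GoodC N) : FL ℂ N := ⟨(a : LaurentSeries ℂ), (mem_FL_iff N).mpr (coe_mem_FC N a)⟩

theorem coe_toFL (a : GoodC N) : ((toFL N a : FL ℂ N) : LaurentSeries ℂ) = a := rfl

theorem toFL_ne_zero {a : GoodC N} (ha : a ≠ 0) : toFL N a ≠ 0 := by
  intro h
  apply ha
  apply Subtype.ext
  have h1 := congrArg (fun x : FL ℂ N => (x : LaurentSeries ℂ)) h
  exact h1

/-- The order at `τ` of a good series, computed in the function field. -/
theorem ord_toFL {a : GoodC N} (ha : a ≠ 0) (τ : ℍ) :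
    (cdataC N).ord τ (toFL N a) = ordZ τ (thetaC N a) := by
  obtain ⟨a₁, b₁, hb₁, hab⟩ := exists_mul_eqL (toFL N a)
  have hb₁' : b₁ ≠ 0 := by
    rintro rfl
    exact hb₁ rfl
  have ha₁ : a₁ ≠ 0 := by
    rintro rfl
    have h0 : toFL N a * (b₁ : FL ℂ N) = 0 := hab
    rcases mul_eq_zero.mp h0 with h | h
    · exact toFL_ne_zero N ha h
    · exact hb₁ h
  have hx : toFL N a = (a₁ : FL ℂ N) / (b₁ : FL ℂ N) := eq_div_of_mul_eq hb₁ hab
  have h0 : (cdataC N).ord τ ((a₁ : FL ℂ N) / (b₁ : FL ℂ N))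
      = ordZ τ ((cdataC N).θ a₁) - ordZ τ ((cdataC N).θ b₁) :=
    (cdataC N).ord_div τ ha₁ hb₁'
  rw [cdataC_θ, cdataC_θ] at h0
  rw [hx, h0]
  have hG : a * inclG N b₁ = inclG N a₁ := by
    apply Subtype.ext
    have h1 := congrArg (fun x : FL ℂ N => (x : LaurentSeries ℂ)) hab
    exact h1
  have h1 := congrArg (thetaC N) hG
  rw [map_mul, thetaC_inclG, thetaC_inclG] at h1
  have h2 := congrArg (ordZ τ) h1
  rw [ordZ_mul τ (thetaC_ne_zero N ha)
    ((map_ne_zero_iff _ (thetaL_injective (RingHom.id ℂ) N)).mpr hb₁')] at h2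
  omega

/-- The order at `τ` of a quotient of good series. -/
theorem ord_eq_sub {f : FL ℂ N} {a b : GoodC N} (ha : a ≠ 0) (hb : b ≠ 0)
    (hab : (f : LaurentSeries ℂ) * (b : LaurentSeries ℂ) = a) (τ : ℍ) :
    (cdataC N).ord τ f = ordZ τ (thetaC N a) - ordZ τ (thetaC N b) := by
  have hF : f * toFL N b = toFL N a := Subtype.ext hab
  have hf0 : f ≠ 0 := by
    rintro rfl
    rw [zero_mul] at hF
    exact toFL_ne_zero N ha hF.symm
  have h1 := ((cdataC N).isOrd_ord τ).map_mul hf0 (toFL_ne_zero N hb)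
  rw [hF, ord_toFL N ha, ord_toFL N hb] at h1
  omega

/-- `DivH` in terms of the order functions of the function field. -/
theorem divH_iff_ord (m : ℕ) (f : LaurentSeries ℂ) :
    DivH N m f ↔ ∃ hf : f ∈ laurentBaseChange ℂ (modularFunctionFieldFull N), f ≠ 0 ∧
      ∀ τ : ℍ, (m : ℤ) ∣ (cdataC N).ord τ ⟨f, hf⟩ := by
  constructor
  · intro h
    have hmem := (mem_FL_iff N).mpr h.mem_FC
    refine ⟨hmem, h.ne_zero, fun τ => ?_⟩
    obtain ⟨a, b, ha, hb, hab, hdiv⟩ := h
    rw [ord_eq_sub N (f := ⟨f, hmem⟩) ha hb hab τ]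
    exact hdiv τ
  · rintro ⟨hf, hf0, hdiv⟩
    obtain ⟨a, b, hb, hab⟩ := exists_good_frac N ((mem_FL_iff N).mp hf)
    have hb' : (b : LaurentSeries ℂ) ≠ 0 := fun h => hb (Subtype.ext h)
    have ha : a ≠ 0 := by
      rintro rfl
      exact mul_ne_zero hf0 hb' hab
    refine ⟨a, b, ha, hb, hab, fun τ => ?_⟩
    rw [← ord_eq_sub N (f := ⟨f, hf⟩) ha hb hab τ]
    exact hdiv τ

/-! ### The coefficientwise action on the function field -/

omit [NeZero N] in
variable {N} in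
theorem coeffMap_mem_FL (σ : ℂ ≃+* ℂ) {f : LaurentSeries ℂ}
    (hf : f ∈ laurentBaseChange ℂ (modularFunctionFieldFull N)) :
    coeffMap (σ : ℂ →+* ℂ) f ∈ laurentBaseChange ℂ (modularFunctionFieldFull N) :=
  (mem_FL_iff N).mpr (coeffMap_mem_FC N σ ((mem_FL_iff N).mp hf))

/-- The coefficientwise action of `σ` on `FL ℂ N`. -/
def coeffHomFL (σ : ℂ ≃+* ℂ) : FL ℂ N →+* FL ℂ N where
  toFun x := ⟨coeffMap (σ : ℂ →+* ℂ) (x : LaurentSeries ℂ), coeffMap_mem_FL σ x.2⟩
  map_one' := Subtype.ext (map_one _)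
  map_mul' _ _ := Subtype.ext (map_mul _ _ _)
  map_zero' := Subtype.ext (map_zero _)
  map_add' _ _ := Subtype.ext (map_add _ _ _)

theorem coe_coeffHomFL (σ : ℂ ≃+* ℂ) (x : FL ℂ N) :
    ((coeffHomFL N σ x : FL ℂ N) : LaurentSeries ℂ)
      = coeffMap (σ : ℂ →+* ℂ) (x : LaurentSeries ℂ) := rfl

theorem coeffHomFL_comp_symm (σ : ℂ ≃+* ℂ) :
    (coeffHomFL N σ).comp (coeffHomFL N σ.symm) = RingHom.id (FL ℂ N) := by
  apply RingHom.ext
  intro x
  apply Subtype.ext
  show coeffMap (σ : ℂ →+* ℂ) (coeffMap (σ.symm : ℂ →+* ℂ) (x : LaurentSeries ℂ)) = x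
  rw [coeffMap_coeffMap]
  have h : (σ : ℂ →+* ℂ).comp (σ.symm : ℂ →+* ℂ) = RingHom.id ℂ :=
    RingHom.ext fun c => σ.apply_symm_apply c
  rw [coeffMap_congr h, coeffMap_id]

/-- The coefficientwise action of `σ` on `FL ℂ N`, as a ring automorphism. -/
def coeffEquivFL (σ : ℂ ≃+* ℂ) : FL ℂ N ≃+* FL ℂ N :=
  RingEquiv.ofRingHom (coeffHomFL N σ) (coeffHomFL N σ.symm) (coeffHomFL_comp_symm N σ)
    (by
      have h := coeffHomFL_comp_symm N σ.symm
      rwa [RingEquiv.symm_symm] at h)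

theorem coe_coeffEquivFL (σ : ℂ ≃+* ℂ) (x : FL ℂ N) :
    ((coeffEquivFL N σ x : FL ℂ N) : LaurentSeries ℂ)
      = coeffMap (σ : ℂ →+* ℂ) (x : LaurentSeries ℂ) := rfl

theorem coeffEquivFL_algebraMap (σ : ℂ ≃+* ℂ) (c : ℂ) :
    coeffEquivFL N σ (algebraMap ℂ (FL ℂ N) c) = algebraMap ℂ (FL ℂ N) (σ c) := by
  apply Subtype.ext
  rw [coe_coeffEquivFL]
  exact coeffMap_algebraMap (σ : ℂ →+* ℂ) c

theorem coeffEquivFL_jL (σ : ℂ ≃+* ℂ) : coeffEquivFL N σ (jL ℂ N) = jL ℂ N := by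
  apply Subtype.ext
  rw [coe_coeffEquivFL, coe_jL, coeffEmb, coeffMap_coeffMap]
  exact coeffMap_congr (RingHom.ext fun c => by simp) jq

end AutSt

/-! ### The main theorem -/

open AutSt in
/-- **Aut-stability of `DivH`.**  The set of `m`-divisible modular functions of level `N` in
`ℂ((q))` is stable under the coefficientwise action of every ring automorphism of `ℂ`. -/
theorem divH_coeffMap (N m : ℕ) [NeZero N] (σ : ℂ ≃+* ℂ) {f : LaurentSeries ℂ}
    (hf : DivH N m f) : DivH N m (coeffMap (σ : ℂ →+* ℂ) f) := by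
  obtain ⟨hfm, hf0, hdiv⟩ := (divH_iff_ord N m f).mp hf
  have hne : (⟨f, hfm⟩ : FL ℂ N) ≠ 0 := by
    intro h
    exact hf0 (congrArg (fun x : FL ℂ N => (x : LaurentSeries ℂ)) h)
  refine (divH_iff_ord N m _).mpr ⟨coeffMap_mem_FL σ hfm, ?_, fun τ => ?_⟩
  · intro h
    exact hf0 ((map_eq_zero (coeffMap (σ : ℂ →+* ℂ))).mp h)
  · exact dvd_ord_of_ringEquiv (cdataC N) σ (coeffEquivFL N σ) (coeffEquivFL_algebraMap N σ)
      (coeffEquivFL_jL N σ) (m : ℤ) hne hdiv τ

end Fermat.Agent.S30.DescentInst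

end
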