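import Fermat.Agent.S30.DescentInst.Horb
import Fermat.Agent.S24.Theta

set_option autoImplicit false
set_option linter.dupNamespace false

/-!
# Kummer characters over `ℂ` and the passage back to `ℚ̄`

* `HasChar` is multiplicative (`HasChar.mul`), trivial on the function field
  (`hasChar_of_mem_FC`), and the character is unique (`HasChar.unique`) and independent of the
  representation as a quotient of good series (`HasChar.exists_root_of_repr`).
* `coeffMap_mem_goodC`, `thetaC_coeffMap`: the base change `ℚ̄ → ℂ` of an element of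
  `Theta.A0 N` is a good series with the same analytic avatar.
* `exists_kummerRoot_of_descent`: if `y ∈ ℚ̄((q))`, `y ^ m ∈ F_N`, and the base change of `y`
  is `u * x0` with `u` in the function field over `ℂ` and `x0` of character `φ`, then
  `y ^ m = a / b` (`a b ∈ A0 N`) has a holomorphic `m`-th root with multiplier character `φ`.
-/

noncomputable section

open UpperHalfPlane ModularCurve HahnSeries CongruenceSubgroup
open Fermat.Agent.S24.Cusp Fermat.Agent.S24.HolH Fermat.Agent.S24 Fermat.Agent.Lib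
open Fermat.Agent.S24.Theta Fermat.Agent.S24.Modular
open scoped MatrixGroups Manifold

namespace Fermat.Agent.S30.DescentInst

variable {N : ℕ} [NeZero N] {m : ℕ}

/-- A series with a character is an `m`-th root of an `m`-divisible function. -/
theorem HasChar.divH {y : LaurentSeries ℂ} {φ : Gamma0 N →* rootsOfUnity m ℂ}
    (h : HasChar N m y φ) (hm : 0 < m) : DivH N m (y ^ m) := by
  obtain ⟨a, b, H, ha, hb, hab, hH, hHm, -⟩ := h
  refine ⟨a, b, ha, hb, hab, fun τ => ?_⟩
  have h1 := congrArg (ordZ τ) hHm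
  rw [HolRootH.ordZ_pow τ hH, ordZ_mul τ (thetaC_ne_zero N ha)
    (pow_ne_zero _ (thetaC_ne_zero N hb)), HolRootH.ordZ_pow τ (thetaC_ne_zero N hb)] at h1
  refine ⟨ordZ τ H - ordZ τ (thetaC N b), ?_⟩
  have hm1 : ((m - 1 : ℕ) : ℤ) = (m : ℤ) - 1 := by
    rw [Nat.cast_sub hm]
    simp
  rw [hm1] at h1
  linear_combination (-1 : ℤ) * h1

/-- Nonzero elements of the function field have the trivial character. -/
theorem hasChar_of_mem_FC (m : ℕ) {u : LaurentSeries ℂ} (hu : u ∈ FC N) (hu0 : u ≠ 0) :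
    HasChar N m u 1 := by
  obtain ⟨u1, u2, hu2, h12⟩ := exists_good_frac N hu
  have hu2' : (u2 : LaurentSeries ℂ) ≠ 0 := fun h => hu2 (Subtype.ext h)
  have hu1 : u1 ≠ 0 := by
    rintro rfl
    exact mul_ne_zero hu0 hu2' h12
  refine ⟨u1 ^ m, u2 ^ m, thetaC N u1 * thetaC N u2 ^ (m - 1), pow_ne_zero _ hu1,
    pow_ne_zero _ hu2, ?_, ?_, ?_, ?_⟩
  · push_cast
    rw [← mul_pow, h12]
  · exact mul_ne_zero (thetaC_ne_zero N hu1) (pow_ne_zero _ (thetaC_ne_zero N hu2))
  · rw [map_pow, map_pow, mul_pow, ← pow_mul, ← pow_mul, mul_comm (m - 1) m]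
  · intro γ
    rw [map_mul, map_pow, compSL_thetaC N γ.2, compSL_thetaC N γ.2]
    simp

/-- Characters multiply. -/
theorem HasChar.mul {y y' : LaurentSeries ℂ} {φ φ' : Gamma0 N →* rootsOfUnity m ℂ}
    (h : HasChar N m y φ) (h' : HasChar N m y' φ') : HasChar N m (y * y') (φ * φ') := by
  obtain ⟨a, b, H, ha, hb, hab, hH, hHm, hφ⟩ := h
  obtain ⟨a', b', H', ha', hb', hab', hH', hHm', hφ'⟩ := h'
  refine ⟨a * a', b * b', H * H', mul_ne_zero ha ha', mul_ne_zero hb hb', ?_,
    mul_ne_zero hH hH', ?_, ?_⟩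
  · push_cast
    rw [← hab, ← hab']
    ring
  · rw [mul_pow, hHm, hHm', map_mul, map_mul, mul_pow]
    ring
  · intro γ
    rw [map_mul, hφ γ, hφ' γ, smul_mul_smul_comm]
    simp [MonoidHom.mul_apply]

/-- The character is determined by the series. -/
theorem HasChar.unique (hm : 0 < m) {y : LaurentSeries ℂ} {φ φ' : Gamma0 N →* rootsOfUnity m ℂ}
    (h : HasChar N m y φ) (h' : HasChar N m y φ') : φ = φ' := by
  obtain ⟨a, b, H, ha, hb, hab, hH, hHm, hφ⟩ := h
  obtain ⟨a', b', H', ha', hb', hab', hH', hHm', hφ'⟩ := h'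
  have hcross : a * b' = a' * b := by
    apply Subtype.ext
    push_cast
    rw [← hab, ← hab']
    ring
  obtain ⟨k, rfl⟩ : ∃ k, m = k + 1 := ⟨m - 1, by omega⟩
  rw [Nat.add_sub_cancel] at hHm hHm'
  have h1 : thetaC N a * thetaC N b' = thetaC N a' * thetaC N b := by
    have h := congrArg (thetaC N) hcross
    simpa only [map_mul] using h
  have hpow : (H * thetaC N b') ^ (k + 1) = (H' * thetaC N b) ^ (k + 1) := by
    rw [mul_pow, mul_pow, hHm, hHm']
    calc thetaC N a * thetaC N b ^ k * thetaC N b' ^ (k + 1)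
        = (thetaC N a * thetaC N b') * (thetaC N b ^ k * thetaC N b' ^ k) := by ring
      _ = (thetaC N a' * thetaC N b) * (thetaC N b ^ k * thetaC N b' ^ k) := by rw [h1]
      _ = thetaC N a' * thetaC N b' ^ k * thetaC N b ^ (k + 1) := by ring
  have hne : H' * thetaC N b ≠ 0 := mul_ne_zero hH' (thetaC_ne_zero N hb)
  obtain ⟨ζ, hζ1, hζ⟩ := HolRootH.exists_rootOfUnity_of_pow_eq (k + 1) (Nat.succ_ne_zero k) _ _
    hpow hne
  have hζ0 : ζ ≠ 0 := by
    rintro rfl
    rw [zero_pow (Nat.succ_ne_zero k)] at hζ1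
    exact zero_ne_one hζ1
  refine MonoidHom.ext fun γ => Subtype.ext (Units.ext ?_)
  have e1 := congrArg (compSL (γ : SL(2, ℤ))) hζ
  rw [map_mul, map_smul, map_mul, hφ γ, hφ' γ, compSL_thetaC N γ.2, compSL_thetaC N γ.2,
    smul_mul_assoc, smul_mul_assoc, hζ, smul_smul, smul_smul] at e1
  have e2 := HolRootH.smul_left_cancel_of_ne_zero hne e1
  exact mul_right_cancel₀ hζ0 (by rw [e2, mul_comm])

/-- **Independence of the representation.**  A series with character `φ` has, for every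
representation of its `m`-th power as a quotient of good series, a holomorphic root with
multiplier `φ`. -/
theorem HasChar.exists_root_of_repr (hm : 0 < m) {y : LaurentSeries ℂ}
    {φ : Gamma0 N →* rootsOfUnity m ℂ} (h : HasChar N m y φ) {a b : GoodC N} (ha : a ≠ 0)
    (hb : b ≠ 0) (hab : y ^ m * (b : LaurentSeries ℂ) = a) :
    ∃ H : HolH, H ≠ 0 ∧ H ^ m = thetaC N a * thetaC N b ^ (m - 1) ∧
      ∀ γ : Gamma0 N, compSL (γ : SL(2, ℤ)) H = (((φ γ : rootsOfUnity m ℂ) : ℂˣ) : ℂ) • H := by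
  have : NeZero m := ⟨hm.ne'⟩
  have hd := (h.divH hm).dvd_of_eq ha hb hab
  obtain ⟨H, hH, hHm, -⟩ := HolRootH.exists_root_frac m hm.ne' (thetaC N a) (thetaC N b)
    (thetaC_ne_zero N ha) (thetaC_ne_zero N hb) hd
  have hinv : ∀ γ ∈ Gamma0 N, compSL γ (H ^ m) = H ^ m := by
    intro γ hγ
    rw [hHm, map_mul, map_pow, compSL_thetaC N hγ, compSL_thetaC N hγ]
  obtain ⟨φ'', hφ''⟩ := HolRootH.exists_character m (Gamma0 N) H hH hinv
  have h'' : HasChar N m y φ'' := ⟨a, b, H, ha, hb, hab, hH, hHm, hφ''⟩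
  have e := HasChar.unique hm h'' h
  subst e
  exact ⟨H, hH, hHm, hφ''⟩

/-! ### Base change `ℚ̄ → ℂ` -/

/-- An expansion with coefficients in `K`, read in `ℂ`. -/
theorem hasQExpK_coeffMap {K : Type*} [Field K] (ι : K →+* ℂ) {M : ℕ} {A : LaurentSeries K}
    {φ : ℍ → ℂ} (h : QB.HasQExpK ι M A φ) :
    QB.HasQExpK (RingHom.id ℂ) M (coeffMap ι A) φ := by
  intro τ
  have h1 := h τ
  have e : Puiseux.evalTerm (RingHom.id ℂ) (coeffMap ι A)
      (Complex.exp (2 * Real.pi * Complex.I * (τ : ℂ) / M))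
      = Puiseux.evalTerm ι A (Complex.exp (2 * Real.pi * Complex.I * (τ : ℂ) / M)) := by
    funext n
    rw [Puiseux.evalTerm_def, Puiseux.evalTerm_def, coeffMap_coeff]
    rfl
  rw [e]
  exact h1

variable (ι : Kbar →+* ℂ)

theorem coe_mem_good (x : A0 N) :
    ((x : FN N) : LaurentSeries Kbar) ∈ (Fermat.Agent.S30.Rational.sysOf ι N).goodSubalgebra := by
  have h : Algebra.adjoin Kbar (DegreeGen.gens Kbar N)
      ≤ (Fermat.Agent.S30.Rational.sysOf ι N).goodSubalgebra :=
    Algebra.adjoin_le (Fermat.Agent.S30.Rational.gens_subset_good ι N)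
  exact h (mem_A0.mp x.2)

theorem hasQExpK_theta (x : A0 N) :
    QB.HasQExpK ι N (qExpand Kbar N ((x : FN N) : LaurentSeries Kbar))
      ((theta ι N x : HolH) : ℍ → ℂ) :=
  (hasQ_iff_hasQExpK.mp (hasQ_theta ι N x)).qExpand_one N

/-- The base change to `ℂ` of an element of `A0 N` is good. -/
theorem coeffMap_mem_goodC (x : A0 N) :
    coeffMap ι ((x : FN N) : LaurentSeries Kbar) ∈ GoodC N := by
  rw [Fermat.Agent.S30.Rational.mem_good_iff (RingHom.id ℂ) N]
  set g : (Fermat.Agent.S30.Rational.sysOf ι N).goodSubalgebra := ⟨_, coe_mem_good ι x⟩ with hg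
  have hfun : (Fermat.Agent.S30.Rational.sysOf ι N).funOf g = ((theta ι N x : HolH) : ℍ → ℂ) :=
    (Fermat.Agent.S30.Rational.sysOf ι N).funOf_eq (hasQExpK_theta ι x)
  refine ⟨((theta ι N x : HolH) : ℍ → ℂ), ?_, fun γ hγ τ => ?_, fun γ => ?_⟩
  · rw [← coeffMap_qExpand]
    exact hasQExpK_coeffMap ι (hasQExpK_theta ι x)
  · exact theta_smul_of_mem_Gamma0 hγ x τ
  · obtain ⟨B, hB⟩ := (Fermat.Agent.S30.Rational.sysOf ι N).exists_has_smul g γ
    rw [hfun] at hB
    exact ⟨coeffMap ι B, hasQExpK_coeffMap ι hB⟩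

/-- The base change to `ℂ` of an element of `A0 N`, as a good series. -/
def baseC (x : A0 N) : GoodC N := ⟨coeffMap ι ((x : FN N) : LaurentSeries Kbar),
  coeffMap_mem_goodC ι x⟩

theorem coe_baseC (x : A0 N) :
    ((baseC ι x : GoodC N) : LaurentSeries ℂ) = coeffMap ι ((x : FN N) : LaurentSeries Kbar) :=
  rfl

/-- ... with the same analytic avatar. -/
theorem thetaC_baseC (x : A0 N) : thetaC N (baseC ι x) = theta ι N x := by
  apply thetaC_eq_of_has
  rw [coe_baseC, ← coeffMap_qExpand]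
  exact hasQExpK_coeffMap ι (hasQExpK_theta ι x)

theorem baseC_ne_zero {x : A0 N} (hx : x ≠ 0) : baseC ι x ≠ 0 := by
  intro h
  have h1 : thetaC N (baseC ι x) = 0 := by rw [h, map_zero]
  rw [thetaC_baseC] at h1
  exact hx (theta_injective ι N (by rw [h1, map_zero]))

/-- **Back to `ℚ̄`.**  If `y ∈ ℚ̄((q))` has `y ^ m ∈ F_N` and its base change is `u * x0` with
`u ≠ 0` in the function field over `ℂ` and `x0` of character `φ`, then `y ^ m = a / b` with
`a b ∈ A0 N` and `θ a · θ b ^ (m-1)` has a holomorphic `m`-th root with multiplier `φ`. -/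
theorem exists_kummerRoot_of_descent (hm : 0 < m) (φ : Gamma0 N →* rootsOfUnity m ℂ)
    {x0 : LaurentSeries ℂ} (hx0 : HasChar N m x0 φ)
    {y : LaurentSeries Kbar} (hy : y ≠ 0)
    (hym : y ^ m ∈ IntermediateField.adjoin Kbar (DegreeGen.gens Kbar N))
    {u : LaurentSeries ℂ} (hu : u ∈ FC N) (hu0 : u ≠ 0) (hyu : coeffMap ι y = u * x0) :
    ∃ (a b : A0 N) (H : HolH), a ≠ 0 ∧ b ≠ 0 ∧
      y ^ m * ((b : FN N) : LaurentSeries Kbar) = ((a : FN N) : LaurentSeries Kbar) ∧
      H ≠ 0 ∧ H ^ m = theta ι N a * theta ι N b ^ (m - 1) ∧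
      ∀ γ : Gamma0 N, compSL (γ : SL(2, ℤ)) H = (((φ γ : rootsOfUnity m ℂ) : ℂˣ) : ℂ) • H := by
  have hmem : y ^ m ∈ modularFunctionFieldBar N := by
    have h := hym
    rw [← DegreeGen.laurentBaseChange_full_eq_adjoin] at h
    exact h
  obtain ⟨a, b, hb, hab⟩ := exists_mul_eq (⟨y ^ m, hmem⟩ : FN N)
  have hab' : y ^ m * ((b : FN N) : LaurentSeries Kbar) = ((a : FN N) : LaurentSeries Kbar) :=
    congrArg Subtype.val hab
  have hb0 : b ≠ 0 := fun h => hb (by rw [h]; rfl)
  have hb' : ((b : FN N) : LaurentSeries Kbar) ≠ 0 := fun h => hb (Subtype.ext h)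
  have ha0 : a ≠ 0 := by
    rintro rfl
    have h0 : ((((0 : A0 N) : FN N)) : LaurentSeries Kbar) = 0 := rfl
    rw [h0] at hab'
    exact mul_ne_zero (pow_ne_zero m hy) hb' hab'
  have hchar : HasChar N m (coeffMap ι y) φ := by
    have h := (hasChar_of_mem_FC m hu hu0).mul hx0
    rw [one_mul, ← hyu] at h
    exact h
  have hrepr : coeffMap ι y ^ m * ((baseC ι b : GoodC N) : LaurentSeries ℂ)
      = (baseC ι a : GoodC N) := by
    rw [coe_baseC, coe_baseC, ← map_pow, ← map_mul, hab']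
  obtain ⟨H, hH, hHm, hφ⟩ := hchar.exists_root_of_repr hm (baseC_ne_zero ι ha0)
    (baseC_ne_zero ι hb0) hrepr
  rw [thetaC_baseC, thetaC_baseC] at hHm
  exact ⟨a, b, H, ha0, hb0, hab', hH, hHm, hφ⟩

end Fermat.Agent.S30.DescentInst

end
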