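import Fermat.Agent.S30.DescentInst.Defs
import Fermat.Agent.S30.RootQExp
import Fermat.Agent.S30.KummerChar.Cusp
import Fermat.Agent.Lib.HolRootH
import Fermat.Agent.S24.QB.Conv

set_option autoImplicit false
set_option linter.dupNamespace false

/-!
# The finite-orbit hypothesis of the Kummer descent `ℂ → ℚ̄`

* `HasChar N m y φ`: the Laurent series `y ∈ ℂ((q))` is an `m`-th root of a quotient `a / b` of
  good series, and a holomorphic `m`-th root `H` of `θ a · θ b ^ (m-1)` has the multiplier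
  character `φ : Γ₀(N) → μ_m`.
* `exists_good_root`: a `Γ₀(N)`-invariant holomorphic `m`-th root of the avatar of a good series
  is the avatar of a good series.
* `HasChar.exists_mul`: two series with the same character differ by a factor in the function
  field `FC N`.
* `horb_of_stab`: if `DivH N m` is stable under the coefficientwise action of `Aut(ℂ)`, then the
  `Aut(ℂ)`-orbit of an `m`-th root `x0` of an `m`-divisible function meets only finitely many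
  classes modulo `FC N ˣ` (the hypothesis `horb` of the abstract descent).
-/

noncomputable section

open UpperHalfPlane ModularCurve HahnSeries CongruenceSubgroup
open Fermat.Agent.S24.Cusp Fermat.Agent.S24.HolH Fermat.Agent.S24 Fermat.Agent.Lib
open scoped MatrixGroups Manifold

namespace Fermat.Agent.S30.DescentInst

variable {N : ℕ} [NeZero N]

/-- There are only finitely many characters `Γ₀(N) → μ_m`. -/
theorem finite_hom_gamma0 (N m : ℕ) [NeZero N] [NeZero m] :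
    Finite (Gamma0 N →* rootsOfUnity m ℂ) := by
  have hfg : Group.FG (Gamma0 N) := by
    have : Group.FG SL(2, ℤ) := by
      rw [Group.fg_iff]
      exact ⟨{ModularGroup.S, ModularGroup.T}, SpecialLinearGroup.SL2Z_generators,
        Set.toFinite _⟩
    exact Subgroup.fg_of_index_ne_zero _
  obtain ⟨S, hS, hSfin⟩ := Group.fg_iff.mp hfg
  have : Finite S := hSfin
  refine Finite.of_injective
    (fun (φ : Gamma0 N →* rootsOfUnity m ℂ) (s : S) => φ (s : Gamma0 N)) ?_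
  intro φ ψ h
  apply MonoidHom.eq_of_eqOn_dense hS
  intro s hs
  exact congrFun h ⟨s, hs⟩

theorem T_mem_gamma0 (N : ℕ) : ModularGroup.T ∈ Gamma0 N := by
  rw [Gamma0_mem]
  simp [ModularGroup.T]

omit [NeZero N] in
theorem apply_vadd_of_inv {W : HolH} (hinv : ∀ γ ∈ Gamma0 N, compSL γ W = W) (τ : ℍ) :
    (W : ℍ → ℂ) ((1 : ℝ) +ᵥ τ) = (W : ℍ → ℂ) τ := by
  have h3 := congrArg (fun F : HolH => (F : ℍ → ℂ) τ) (hinv _ (T_mem_gamma0 N))
  simp only [compSL_apply] at h3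
  rw [UpperHalfPlane.modular_T_smul] at h3
  exact h3

/-- The avatar of a good series has the series itself as its `q`-expansion. -/
theorem hasQExpK_one_thetaC (f : GoodC N) :
    QB.HasQExpK (RingHom.id ℂ) 1 (f : LaurentSeries ℂ) ((thetaC N f : HolH) : ℍ → ℂ) := by
  have hζ : (RingHom.id ℂ) ((Units.mk0 (Complex.exp (2 * Real.pi * Complex.I / N))
      (Complex.exp_ne_zero _) : ℂˣ) : ℂ) = Complex.exp (2 * Real.pi * Complex.I / N) := rfl
  obtain ⟨A', hA', hA'1⟩ := QB.HasQExpK.exists_qExpand_of_periodic _ hζ (hasQExpK_thetaC N f)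
    (apply_vadd_of_inv (fun γ hγ => compSL_thetaC N hγ f))
  have h : (f : LaurentSeries ℂ) = A' := qExpand_injective N hA'
  rw [h]
  exact hA'1

/-- **Roots of good series are good.**  A `Γ₀(N)`-invariant holomorphic `m`-th root of the avatar
of a good series is the avatar of a good series. -/
theorem exists_good_root {m : ℕ} (hm : m ≠ 0) (c : GoodC N) (W : HolH)
    (hW : W ^ m = thetaC N c) (hinv : ∀ γ ∈ Gamma0 N, compSL γ W = W) :
    ∃ w : GoodC N, thetaC N w = W ∧ w ^ m = c := by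
  have hper1 : ∀ τ : ℍ, (W : ℍ → ℂ) (((1 : ℕ) : ℝ) +ᵥ τ) = (W : ℍ → ℂ) τ := by
    intro τ
    rw [Nat.cast_one]
    exact apply_vadd_of_inv hinv τ
  have hB : QB.HasQExpK (RingHom.id ℂ) 1 (c : LaurentSeries ℂ)
      (fun τ => (W : ℍ → ℂ) τ ^ m) := by
    refine (hasQExpK_one_thetaC c).congr fun τ => ?_
    rw [← hW, HolRootH.coe_pow_apply]
  obtain ⟨A, hA, hAm⟩ := RootQExp.hasQExpK_root (RingHom.id ℂ) one_ne_zero hm W.2 hper1 hB
  have hgood : A ∈ GoodC N := by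
    rw [Fermat.Agent.S30.Rational.mem_good_iff (RingHom.id ℂ) N]
    refine ⟨(W : ℍ → ℂ), hA.qExpand_one N, fun γ hγ τ => ?_, fun γ => ?_⟩
    · have h3 := congrArg (fun F : HolH => (F : ℍ → ℂ) τ) (hinv γ hγ)
      simp only [compSL_apply] at h3
      exact h3
    · obtain ⟨B, hB⟩ := exists_has_compSL_thetaC N γ c
      have hperN : ∀ τ : ℍ, ((compSL γ W : HolH) : ℍ → ℂ) ((N : ℝ) +ᵥ τ)
          = ((compSL γ W : HolH) : ℍ → ℂ) τ := by
        apply Fermat.Agent.S30.KummerChar.periodic_of_compSL_T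
        rw [← compSL_mul]
        have e : γ * ModularGroup.T ^ (N : ℤ)
            = (γ * ModularGroup.T ^ (N : ℤ) * γ⁻¹) * γ := by group
        rw [e, compSL_mul,
          hinv _ (Fermat.Agent.S30.KummerChar.conj_T_zpow_mem_Gamma0 N γ N dvd_rfl)]
      have hB' : QB.HasQExpK (RingHom.id ℂ) N B
          (fun τ => ((compSL γ W : HolH) : ℍ → ℂ) τ ^ m) := by
        refine hB.congr fun τ => ?_
        rw [← hW, map_pow, HolRootH.coe_pow_apply]
      obtain ⟨A2, hA2, -⟩ := RootQExp.hasQExpK_root (RingHom.id ℂ) (NeZero.ne N) hm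
        (compSL γ W).2 hperN hB'
      exact ⟨A2, hA2.congr fun τ => by rw [compSL_apply]⟩
  exact ⟨⟨A, hgood⟩, thetaC_eq_of_has N (hA.qExpand_one N), Subtype.ext hAm⟩

/-- `y ∈ ℂ((q))` is an `m`-th root of a quotient `a / b` of good series and a holomorphic
`m`-th root of `θ a · θ b ^ (m - 1)` has the multiplier character `φ`. -/
def HasChar (N m : ℕ) [NeZero N] (y : LaurentSeries ℂ) (φ : Gamma0 N →* rootsOfUnity m ℂ) :
    Prop :=
  ∃ (a b : GoodC N) (H : HolH), a ≠ 0 ∧ b ≠ 0 ∧ y ^ m * (b : LaurentSeries ℂ) = a ∧ H ≠ 0 ∧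
    H ^ m = thetaC N a * thetaC N b ^ (m - 1) ∧
    ∀ γ : Gamma0 N, compSL (γ : SL(2, ℤ)) H = (((φ γ : rootsOfUnity m ℂ) : ℂˣ) : ℂ) • H

/-- Every `m`-th root of an `m`-divisible function has a character. -/
theorem exists_hasChar {m : ℕ} [NeZero m] {y : LaurentSeries ℂ} (h : DivH N m (y ^ m)) :
    ∃ φ : Gamma0 N →* rootsOfUnity m ℂ, HasChar N m y φ := by
  obtain ⟨a, b, ha, hb, hab, hdiv⟩ := h
  obtain ⟨H, hH, hHm, -⟩ := HolRootH.exists_root_frac m (NeZero.ne m) (thetaC N a) (thetaC N b)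
    (thetaC_ne_zero N ha) (thetaC_ne_zero N hb) hdiv
  have hinv : ∀ γ ∈ Gamma0 N, compSL γ (H ^ m) = H ^ m := by
    intro γ hγ
    rw [hHm, map_mul, map_pow, compSL_thetaC N hγ, compSL_thetaC N hγ]
  obtain ⟨φ, hφ⟩ := HolRootH.exists_character m (Gamma0 N) H hH hinv
  exact ⟨φ, a, b, H, ha, hb, hab, hH, hHm, hφ⟩

/-- **Same character ⇒ same class.**  Two series with the same character differ by a nonzero
factor in the function field. -/
theorem HasChar.exists_mul {m : ℕ} (hm : 0 < m) {y₁ y₂ : LaurentSeries ℂ}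
    {φ : Gamma0 N →* rootsOfUnity m ℂ}
    (h₁ : HasChar N m y₁ φ) (h₂ : HasChar N m y₂ φ) :
    ∃ u ∈ FC N, u ≠ 0 ∧ y₁ = u * y₂ := by
  obtain ⟨k, rfl⟩ : ∃ k, m = k + 1 := ⟨m - 1, by omega⟩
  obtain ⟨a₁, b₁, H₁, ha₁, hb₁, hab₁, hH₁, hHm₁, hφ₁⟩ := h₁
  obtain ⟨a₂, b₂, H₂, ha₂, hb₂, hab₂, hH₂, hHm₂, hφ₂⟩ := h₂
  rw [Nat.add_sub_cancel] at hHm₁ hHm₂
  set W : HolH := H₁ * H₂ ^ k with hW
  set c : GoodC N := (a₁ * b₁ ^ k) * (a₂ * b₂ ^ k) ^ k with hc
  have hWm : W ^ (k + 1) = thetaC N c := by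
    rw [hW, hc, mul_pow, ← pow_mul, mul_comm k (k + 1), pow_mul, hHm₁, hHm₂]
    simp only [map_mul, map_pow]
  have hinv : ∀ γ ∈ Gamma0 N, compSL γ W = W := by
    intro γ hγ
    have e₁ := hφ₁ ⟨γ, hγ⟩
    have e₂ := hφ₂ ⟨γ, hγ⟩
    have hζ : (((φ ⟨γ, hγ⟩ : rootsOfUnity (k + 1) ℂ) : ℂˣ) : ℂ) ^ (k + 1) = 1 := by
      have h := (mem_rootsOfUnity _ _).mp (φ ⟨γ, hγ⟩).2
      have h' := congrArg Units.val h
      simpa using h'
    simp only [] at e₁ e₂
    rw [hW, map_mul, map_pow, e₁, e₂, smul_pow, smul_mul_smul_comm, ← pow_succ', hζ, one_smul]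
  obtain ⟨w, -, hwm⟩ := exists_good_root (Nat.succ_ne_zero k) c W hWm hinv
  have hb₁' : (b₁ : LaurentSeries ℂ) ≠ 0 := fun h => hb₁ (Subtype.ext h)
  have hb₂' : (b₂ : LaurentSeries ℂ) ≠ 0 := fun h => hb₂ (Subtype.ext h)
  have ha₁' : (a₁ : LaurentSeries ℂ) ≠ 0 := fun h => ha₁ (Subtype.ext h)
  have ha₂' : (a₂ : LaurentSeries ℂ) ≠ 0 := fun h => ha₂ (Subtype.ext h)
  have hc0 : (c : LaurentSeries ℂ) ≠ 0 := by
    rw [hc]
    push_cast
    exact mul_ne_zero (mul_ne_zero ha₁' (pow_ne_zero _ hb₁'))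
      (pow_ne_zero _ (mul_ne_zero ha₂' (pow_ne_zero _ hb₂')))
  have hwc : (w : LaurentSeries ℂ) ^ (k + 1) = (c : LaurentSeries ℂ) := by
    have h := congrArg Subtype.val hwm
    simpa using h
  have hw0 : (w : LaurentSeries ℂ) ≠ 0 := by
    intro h
    rw [h, zero_pow (Nat.succ_ne_zero k)] at hwc
    exact hc0 hwc.symm
  set z : LaurentSeries ℂ := y₁ * y₂ ^ k * b₁ * b₂ ^ k with hz
  have hzm : z ^ (k + 1) = (w : LaurentSeries ℂ) ^ (k + 1) := by
    rw [hwc, hc, hz]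
    push_cast
    rw [← hab₁, ← hab₂]
    ring
  -- `z / w` is a constant root of unity
  have hu1 : (z / (w : LaurentSeries ℂ)) ^ (k + 1) = 1 := by
    rw [div_pow, hzm, div_self (pow_ne_zero _ hw0)]
  have hζ0 := Complex.isPrimitiveRoot_exp (k + 1) (Nat.succ_ne_zero k)
  have hζ : IsPrimitiveRoot (algebraMap ℂ (LaurentSeries ℂ)
      (Complex.exp (2 * Real.pi * Complex.I / ((k + 1 : ℕ) : ℂ)))) (k + 1) :=
    hζ0.map_of_injective (algebraMap ℂ (LaurentSeries ℂ)).injective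
  obtain ⟨i, -, hi⟩ := hζ.eq_pow_of_pow_eq_one hu1
  have huF : z / (w : LaurentSeries ℂ) ∈ FC N := by
    rw [← hi]
    exact pow_mem ((FC N).algebraMap_mem _) i
  have hzF : z ∈ FC N := by
    have h : z = z / (w : LaurentSeries ℂ) * w := by
      rw [div_mul_cancel₀ _ hw0]
    rw [h]
    exact mul_mem huF (coe_mem_FC N w)
  have hz0 : z ≠ 0 := by
    intro h
    rw [h, zero_pow (Nat.succ_ne_zero k)] at hzm
    exact pow_ne_zero _ hw0 hzm.symm
  -- the factor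
  set den : LaurentSeries ℂ := (a₂ : LaurentSeries ℂ) / b₂ * b₁ * (b₂ : LaurentSeries ℂ) ^ k
    with hden
  have hdenF : den ∈ FC N :=
    mul_mem (mul_mem (div_mem (coe_mem_FC N a₂) (coe_mem_FC N b₂)) (coe_mem_FC N b₁))
      (pow_mem (coe_mem_FC N b₂) k)
  have hden0 : den ≠ 0 :=
    mul_ne_zero (mul_ne_zero (div_ne_zero ha₂' hb₂') hb₁') (pow_ne_zero _ hb₂')
  refine ⟨z / den, div_mem hzF hdenF, div_ne_zero hz0 hden0, ?_⟩
  rw [div_mul_eq_mul_div, eq_div_iff hden0, hden, hz, ← hab₂]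
  field_simp
  ring

/-- **The finite-orbit hypothesis.**  If `m`-divisibility is stable under `Aut(ℂ)`, the orbit of
an `m`-th root of an `m`-divisible function meets only finitely many classes modulo `FC N ˣ`. -/
theorem horb_of_stab (N m : ℕ) [NeZero N] (hm : 0 < m)
    (hstab : ∀ (σ : ℂ ≃+* ℂ) (f : LaurentSeries ℂ), DivH N m f →
      DivH N m (coeffMap (σ : ℂ →+* ℂ) f))
    (x0 : LaurentSeries ℂ) (hD : DivH N m (x0 ^ m)) :
    ∃ T : Finset (LaurentSeries ℂ), ∀ σ : ℂ ≃+* ℂ, ∃ t ∈ T, ∃ u ∈ FC N,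
      u ≠ 0 ∧ coeffMap (σ : ℂ →+* ℂ) x0 = u * t := by
  classical
  have : NeZero m := ⟨hm.ne'⟩
  have := finite_hom_gamma0 N m
  have hchar : ∀ σ : ℂ ≃+* ℂ, ∃ φ : Gamma0 N →* rootsOfUnity m ℂ,
      HasChar N m (coeffMap (σ : ℂ →+* ℂ) x0) φ := by
    intro σ
    apply exists_hasChar
    rw [← map_pow]
    exact hstab σ _ hD
  let Φ : Set (Gamma0 N →* rootsOfUnity m ℂ) :=
    {φ | ∃ σ : ℂ ≃+* ℂ, HasChar N m (coeffMap (σ : ℂ →+* ℂ) x0) φ}
  have hΦ : Φ.Finite := Set.toFinite Φ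
  have hsel : ∀ φ : Gamma0 N →* rootsOfUnity m ℂ, ∃ σ : ℂ ≃+* ℂ,
      φ ∈ Φ → HasChar N m (coeffMap (σ : ℂ →+* ℂ) x0) φ := by
    intro φ
    by_cases hφ : φ ∈ Φ
    · obtain ⟨σ, hσ⟩ := hφ
      exact ⟨σ, fun _ => hσ⟩
    · exact ⟨RingEquiv.refl ℂ, fun h => absurd h hφ⟩
  choose s hs using hsel
  refine ⟨hΦ.toFinset.image (fun φ => coeffMap ((s φ : ℂ ≃+* ℂ) : ℂ →+* ℂ) x0), fun σ => ?_⟩
  obtain ⟨φ, hφ⟩ := hchar σ
  have hmem : φ ∈ Φ := ⟨σ, hφ⟩
  refine ⟨_, Finset.mem_image.mpr ⟨φ, hΦ.mem_toFinset.mpr hmem, rfl⟩, ?_⟩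
  exact HasChar.exists_mul hm hφ (hs φ hmem)

end Fermat.Agent.S30.DescentInst

end
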