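import Fermat.Agent.S30.DescentInst.Horb
import Fermat.Agent.S30.EisRoot
import Fermat.Agent.S24.JHol

set_option autoImplicit false
set_option linter.dupNamespace false

/-!
# The Eisenstein root `x_φ = E_φ / E₄` is an `m`-th root of an `m`-divisible function, with
character `φ`

For `φ : Γ₀(N) → ℂˣ` with `φ ^ m = 1`, trivial on the stabiliser of `∞`, put
`G = E_φ · E₄² / Δ ∈ HolH` (holomorphic on `ℍ`, `G ∘ γ = φ γ • G` on `Γ₀(N)`).  Then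
`G ^ m = gFun φ m` is the avatar of the good series `a = x_φ ^ m · j ^ m`, so with `b = j ^ m`:

* `divH_xRoot`: `x_φ ^ m = a / b` is `m`-divisible (`ord θ a - ord θ b = m (ord G - ord j)`);
* `hasChar_xRoot`: `H = G · j ^ (m - 1)` is a holomorphic `m`-th root of `θ a · θ b ^ (m - 1)`
  with multiplier character `φ`.
-/

noncomputable section

open UpperHalfPlane ModularCurve HahnSeries CongruenceSubgroup ModularForm
open Fermat.Agent.S24.Cusp Fermat.Agent.S24.HolH Fermat.Agent.S24 Fermat.Agent.Lib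
open Fermat.Agent.Lib.EisChar Fermat.Agent.S30.EisGood Fermat.Agent.S24.JFun Fermat.Agent.S24.JHol
open scoped MatrixGroups Manifold

namespace Fermat.Agent.S30.DescentInst

local notation "Δ" => ModularForm.discriminant

section Fun

variable {N : ℕ} (φ : Gamma0 N →* ℂˣ)

/-- The function `G = E_φ · E₄² / Δ` on `ℍ`. -/
def gRootFun (τ : ℍ) : ℂ := eisK φ 4 τ * E₄ τ ^ 2 / Δ τ

theorem gRootFun_mdiff (hunit : ∀ γ, ‖(φ γ : ℂ)‖ = 1) :
    MDifferentiable 𝓘(ℂ) 𝓘(ℂ) (gRootFun φ) :=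
  ((mdifferentiable_eisK φ hunit (by norm_num)).mul (E₄.holo'.pow 2)).div
    CuspForm.discriminant.holo' discriminant_ne_zero

theorem gRootFun_pow (m : ℕ) (τ : ℍ) : gRootFun φ τ ^ m = gFun φ m τ := by
  unfold gRootFun gFun
  rw [div_pow, mul_pow, ← pow_mul]

theorem gRootFun_smul
    (hpar : ∀ γ : Gamma0 N, ((γ : SL(2, ℤ)) : Matrix (Fin 2) (Fin 2) ℤ) 1 0 = 0 → φ γ = 1)
    (γ : Gamma0 N) (τ : ℍ) :
    gRootFun φ ((γ : SL(2, ℤ)) • τ) = (φ γ : ℂ) * gRootFun φ τ := by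
  have hd : denom (γ : SL(2, ℤ)) τ ≠ 0 := denom_ne_zero _ τ
  have hΔ := discriminant_ne_zero τ
  have h4 : denom (γ : SL(2, ℤ)) τ ^ (4 : ℤ) = denom (γ : SL(2, ℤ)) τ ^ 4 := by norm_cast
  have h12 : denom (γ : SL(2, ℤ)) τ ^ (12 : ℤ) = denom (γ : SL(2, ℤ)) τ ^ 12 := by norm_cast
  unfold gRootFun
  rw [eisK_smul φ hpar, E4_smul, disc_smul, h4, h12]
  field_simp

/-- `G = E_φ · E₄² / Δ` as a holomorphic function on `ℍ`. -/
def gRoot (hunit : ∀ γ, ‖(φ γ : ℂ)‖ = 1) : HolH := ⟨gRootFun φ, gRootFun_mdiff φ hunit⟩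

end Fun

variable (N : ℕ) [NeZero N]

theorem thetaC_jC_eq : thetaC N (jC N) = jHol :=
  Subtype.ext (thetaC_jC N)

theorem jC_ne_zero : jC N ≠ 0 := by
  intro h
  have h1 := thetaC_jC_eq N
  rw [h, map_zero] at h1
  exact jHol_ne_zero h1.symm

/-- **The Eisenstein data.**  The good series `a = x_φ ^ m · j ^ m` and the holomorphic function
`G = E_φ E₄² / Δ` with `θ a = G ^ m` and `G ∘ γ = φ γ • G`. -/
theorem exists_xRoot_data (m : ℕ) (hm : 0 < m) (φ : Gamma0 N →* ℂˣ)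
    (hφm : ∀ γ, φ γ ^ m = 1)
    (hpar : ∀ γ : Gamma0 N, ((γ : SL(2, ℤ)) : Matrix (Fin 2) (Fin 2) ℤ) 1 0 = 0 → φ γ = 1) :
    ∃ (a : GoodC N) (G : HolH), a ≠ 0 ∧
      EisRoot.xRoot φ ^ m * ((jC N ^ m : GoodC N) : LaurentSeries ℂ) = a ∧ G ≠ 0 ∧
      thetaC N a = G ^ m ∧
      ∀ γ : Gamma0 N, compSL (γ : SL(2, ℤ)) G = (φ γ : ℂ) • G := by
  have hunit := norm_phi_eq_one φ hm hφm
  obtain ⟨f, hf, hinv, htr, hx0, hxf, -, -⟩ := EisRoot.exists_root_series N m hm φ hφm hpar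
  have hgood : f ∈ GoodC N := by
    rw [Fermat.Agent.S30.Rational.mem_good_iff (RingHom.id ℂ) N]
    exact ⟨gFun φ m, hf, hinv, htr⟩
  have hj0 : (coeffEmb ℂ jq : LaurentSeries ℂ) ≠ 0 := by
    rw [← coe_jC N]
    intro h
    exact jC_ne_zero N (Subtype.ext h)
  have hf0 : f ≠ 0 := by
    rw [← hxf]
    exact mul_ne_zero (pow_ne_zero _ hx0) (pow_ne_zero _ hj0)
  have hθ : thetaC N ⟨f, hgood⟩ = gRoot φ hunit ^ m := by
    apply thetaC_eq_of_has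
    refine hf.congr fun τ => ?_
    rw [HolRootH.coe_pow_apply]
    exact (gRootFun_pow φ m τ).symm
  have hG0 : gRoot φ hunit ≠ 0 := by
    intro h
    rw [h, zero_pow hm.ne'] at hθ
    have h1 : (⟨f, hgood⟩ : GoodC N) = 0 := thetaC_injective N (by rw [hθ, map_zero])
    exact hf0 (congrArg Subtype.val h1)
  refine ⟨⟨f, hgood⟩, gRoot φ hunit, fun h => hf0 (congrArg Subtype.val h), ?_, hG0, hθ,
    fun γ => ?_⟩
  · push_cast
    rw [coe_jC]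
    exact hxf
  · apply Subtype.ext
    funext τ
    rw [compSL_apply, HolRootH.coe_smul_apply]
    exact gRootFun_smul φ hpar γ τ

/-- **`x_φ ^ m` is `m`-divisible.** -/
theorem divH_xRoot (m : ℕ) (hm : 0 < m) (φ : Gamma0 N →* ℂˣ)
    (hφm : ∀ γ, φ γ ^ m = 1)
    (hpar : ∀ γ : Gamma0 N, ((γ : SL(2, ℤ)) : Matrix (Fin 2) (Fin 2) ℤ) 1 0 = 0 → φ γ = 1) :
    DivH N m (EisRoot.xRoot φ ^ m) := by
  obtain ⟨a, G, ha, hab, hG, hθ, -⟩ := exists_xRoot_data N m hm φ hφm hpar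
  refine ⟨a, jC N ^ m, ha, pow_ne_zero _ (jC_ne_zero N), hab, fun τ => ?_⟩
  rw [hθ, map_pow, thetaC_jC_eq, HolRootH.ordZ_pow τ hG, HolRootH.ordZ_pow τ jHol_ne_zero,
    ← mul_sub]
  exact dvd_mul_right _ _

/-- **`x_φ` has the character `φ`.** -/
theorem hasChar_xRoot (m : ℕ) (hm : 0 < m) (φ : Gamma0 N →* ℂˣ)
    (hφm : ∀ γ, φ γ ^ m = 1)
    (hpar : ∀ γ : Gamma0 N, ((γ : SL(2, ℤ)) : Matrix (Fin 2) (Fin 2) ℤ) 1 0 = 0 → φ γ = 1)
    (φ' : Gamma0 N →* rootsOfUnity m ℂ)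
    (h : ∀ γ, (((φ' γ : rootsOfUnity m ℂ) : ℂˣ) : ℂ) = (φ γ : ℂ)) :
    HasChar N m (EisRoot.xRoot φ) φ' := by
  obtain ⟨a, G, ha, hab, hG, hθ, hchar⟩ := exists_xRoot_data N m hm φ hφm hpar
  refine ⟨a, jC N ^ m, G * jHol ^ (m - 1), ha, pow_ne_zero _ (jC_ne_zero N), hab,
    mul_ne_zero hG (pow_ne_zero _ jHol_ne_zero), ?_, fun γ => ?_⟩
  · rw [hθ, map_pow, thetaC_jC_eq, mul_pow, ← pow_mul, ← pow_mul, mul_comm (m - 1) m]
  · rw [map_mul, map_pow, compSL_jHol, hchar γ, h γ, smul_mul_assoc]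

end Fermat.Agent.S30.DescentInst

end
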